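import Fermat.Agent.GS.Iface
import Fermat.Agent.GS.Abs.Defs

/-!
# Project GS: the interface between GS-INST (existence of the nodal model) and GS-CONC-B (bridge)

Only definitions.  `L` a number field inside `Q̄`, normal over `ℚ`, `R = A ∩ L` a DVR of residue
characteristic `q`, `N = q * N1`, `w` the Atkin-Lehner involution of `FF L N`,
`𝒪₁` the Gauss valuation subring of `FF L N`, `𝒪₂ = w⁻¹ 𝒪₁`, `h` the base function.
-/

set_option autoImplicit false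
set_option synthInstance.maxHeartbeats 400000

noncomputable section

namespace Fermat.Agent.GS

open Fermat.Agent.GR Fermat.Agent.GR.E ModularCurve IntermediateField

/-- The coefficientwise action of a field automorphism of `L` on `FF L N`. -/
def mapFFEquiv {L : Type*} [Field L] (σ : L ≃+* L) (N : ℕ) : FF L N ≃+* FF L N where
  toFun := mapFF (σ : L →+* L) N
  invFun := mapFF (σ.symm : L →+* L) N
  left_inv u := by
    apply Subtype.ext
    show coeffMap (σ.symm : L →+* L) (coeffMap (σ : L →+* L) (u : LaurentSeries L)) = u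
    rw [coeffMap_coeffMap]
    have : ((σ.symm : L →+* L).comp (σ : L →+* L)) = RingHom.id L := by
      ext x; simp
    rw [this, coeffMap_id]
  right_inv u := by
    apply Subtype.ext
    show coeffMap (σ : L →+* L) (coeffMap (σ.symm : L →+* L) (u : LaurentSeries L)) = u
    rw [coeffMap_coeffMap]
    have : ((σ : L →+* L).comp (σ.symm : L →+* L)) = RingHom.id L := by
      ext x; simp
    rw [this, coeffMap_id]
  map_mul' := map_mul _
  map_add' := map_add _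

@[simp] theorem coe_mapFFEquiv {L : Type*} [Field L] (σ : L ≃+* L) (N : ℕ) (u : FF L N) :
    ((mapFFEquiv σ N u : FF L N) : LaurentSeries L) = coeffMap (σ : L →+* L) u := rfl

set_option maxHeartbeats 2000000 in
/-- Everything the bridge needs from the nodal model over `R` with base function `h`. -/
structure NodalModelData {L : Type*} [Field L] (R : ValuationSubring L) (q N : ℕ) (h : FF L N)
    (w : FF L N ≃ₐ[L] FF L N) (𝒪₁ 𝒪₂ : ValuationSubring (FF L N)) : Prop where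
  spec : ∀ u, u ∈ 𝒪₁ ↔ IsGaussInt R N u
  opp : ∀ u, u ∈ 𝒪₂ ↔ w u ∈ 𝒪₁
  gauss₁ : ∀ ϖ : R, Irreducible ϖ → GaussRing ϖ 𝒪₁
  gauss₂ : ∀ ϖ : R, Irreducible ϖ → GaussRing ϖ 𝒪₂
  ne_zero : h ≠ 0
  mem₁ : h ∈ 𝒪₁
  inv_mem₁ : h⁻¹ ∈ 𝒪₁
  mem₂ : h ∈ 𝒪₂
  inv_mem₂ : h⁻¹ ∈ 𝒪₂
  transc : Transcendental R h
  nodal0 : ∀ ϖ : R, Irreducible ϖ → NodalChart ϖ 𝒪₁ 𝒪₂ (chart R ({h} : Set (FF L N)))
  nodal1 : ∀ ϖ : R, Irreducible ϖ → NodalChart ϖ 𝒪₁ 𝒪₂ (chart R ({h⁻¹} : Set (FF L N)))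
  /-- automorphisms of `L` preserving `R` (decomposition group) -/
  aut : ∀ σ : L ≃+* L, (∀ x, σ x ∈ R ↔ x ∈ R) → ChartAut R 𝒪₁ 𝒪₂ h (mapFFEquiv σ N)
  /-- inertia group -/
  inert : ∀ σ : L ≃+* L, (∀ x, σ x ∈ R ↔ x ∈ R) → (∀ x ∈ R, σ x - x ∈ R.nonunits) →
    ∀ ϖ : R, Irreducible ϖ →
      FrobLike ϖ 𝒪₁ 𝒪₂ (chart R ({h} : Set (FF L N))) (mapFFEquiv σ N) 1 ∧
      FrobLike ϖ 𝒪₁ 𝒪₂ (chart R ({h⁻¹} : Set (FF L N))) (mapFFEquiv σ N) 1
  /-- Frobenius elements -/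
  frob : ∀ σ : L ≃+* L, (∀ x, σ x ∈ R ↔ x ∈ R) → (∀ x ∈ R, σ x - x ^ q ∈ R.nonunits) →
    ∀ ϖ : R, Irreducible ϖ →
      FrobLike ϖ 𝒪₁ 𝒪₂ (chart R ({h} : Set (FF L N))) (mapFFEquiv (σ.trans σ) N)
        (q ^ 2) ∧
      FrobLike ϖ 𝒪₁ 𝒪₂ (chart R ({h⁻¹} : Set (FF L N))) (mapFFEquiv (σ.trans σ) N)
        (q ^ 2)
  finite : Module.Finite (Algebra.adjoin R ({h} : Set (FF L N)))
    (integralClosure (Algebra.adjoin R ({h} : Set (FF L N))) (FF L N))

/-- What GS-INST has to prove for `q`, a level `N1` prime to `q` and a base function `H`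
(`H = h₂` if `q` is odd and `2 ∣ N1`, `H = h₃` if `q = 2` and `3 ∣ N1`) at a place `A` of `Q̄`
above `q`. -/
structure HasNodalModel (A : ValuationSubring Qb) (q N1 : ℕ) (H : LaurentSeries ℤ) : Prop where
  mem : ∀ (K : Type) [Field K] [CharZero K], baseFn K H ∈ FF K (q * N1)
  transc : Transcendental Qb (⟨baseFn Qb H, mem Qb⟩ : FF Qb (q * N1))
  finDim : FiniteDimensional Qb⟮(⟨baseFn Qb H, mem Qb⟩ : FF Qb (q * N1))⟯ (FF Qb (q * N1))
  model : ∀ (L : IntermediateField ℚ Qb) [FiniteDimensional ℚ L] [Normal ℚ L],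
    IsDiscreteValuationRing (A.comap (algebraMap L Qb)) →
    ∀ w : FF L (q * N1) ≃ₐ[L] FF L (q * N1), IsWQ L q N1 w →
    ∃ 𝒪₁ 𝒪₂, NodalModelData (A.comap (algebraMap L Qb)) q (q * N1) ⟨baseFn L H, mem L⟩ w 𝒪₁ 𝒪₂

end Fermat.Agent.GS
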